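import Fermat.Agent.S56.GW.Dual.D7.Chase

/-!
# S56 / [GW-DUAL], cell [D7]: middle exactness of Poitou–Tate (prefix `s56gdm_`)

`s56gdm_main : s56gd_Y2_stmt → s56gd_X2_stmt → s56gd_ME_stmt`.

Given local classes `ξ_q = δ⁰ t_q` orthogonal to the global classes of `M'`: at the level `L` of the
existence theorem (`s56gd_E1`) choose `ψ_q ∈ Hom_Γ(R, J_q(L))` over `t_q` (Frobenius reciprocity),
`φ := Σ_q j_q ψ_q`.  By [Y2] and the sum formula `φ` is orthogonal to `ker(i_*)(p)`, so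
(Tate–Nakayama) `n(φ - i ≫ φ_F)` is a norm, hence (existence theorem) `p ν`, hence `i ≫ φ'`.  After
capitulation the pair `(m ψ, Φ)` satisfies the hypotheses of [X2], giving `x` with
`loc_q x = m ξ_q`, `p ∤ m`.
-/

set_option autoImplicit false
set_option linter.unusedSectionVars false

open CategoryTheory groupCohomology ExtCitation

namespace Fermat.Agent.S56

open Fermat.Agent.S55

local notation "Qbar" => AlgebraicClosure ℚ
local notation "GQ" => (AlgebraicClosure ℚ ≃ₐ[ℚ] AlgebraicClosure ℚ)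

noncomputable section

section Lamt

variable {p : ℕ} [Fact p.Prime] (M : Rep.{0} (ZMod p) GQ) [FiniteDimensional (ZMod p) M]
  (hsm : s56gw_Smooth M) (a : s56gd_Fld) (ha : s56gd_K0 M hsm ≤ a) (q : Nat.Primes)

theorem s56gdm_lamt_add
    (t t' : tt_res (s56gd_D q a) (s56gd_Ra M hsm a ha) ⟶ s56gd_X q a) :
    s56gd_lamt M hsm a ha q (t + t') = s56gd_lamt M hsm a ha q t + s56gd_lamt M hsm a ha q t' := by
  apply Subtype.ext
  refine LvHom.ext fun r => ?_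
  show il_lam q a.L ((t + t').hom r) = il_lam q a.L (t.hom r) + il_lam q a.L (t'.hom r)
  rw [← map_add]
  rfl

theorem s56gdm_lamt_zero :
    s56gd_lamt M hsm a ha q (0 : tt_res (s56gd_D q a) (s56gd_Ra M hsm a ha) ⟶ s56gd_X q a) = 0 := by
  apply Subtype.ext
  refine LvHom.ext fun r => ?_
  show il_lam q a.L ((0 : tt_res (s56gd_D q a) (s56gd_Ra M hsm a ha) ⟶ s56gd_X q a).hom r) = 0
  have : (0 : tt_res (s56gd_D q a) (s56gd_Ra M hsm a ha) ⟶ s56gd_X q a).hom r = 0 := rfl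
  rw [this, map_zero]

theorem s56gdm_lamt_nsmul (n : ℕ)
    (t : tt_res (s56gd_D q a) (s56gd_Ra M hsm a ha) ⟶ s56gd_X q a) :
    s56gd_lamt M hsm a ha q (n • t) = n • s56gd_lamt M hsm a ha q t := by
  induction n with
  | zero => rw [zero_smul, zero_smul]; exact s56gdm_lamt_zero M hsm a ha q
  | succ k ih => rw [succ_nsmul, succ_nsmul, s56gdm_lamt_add, ih]

end Lamt

section Facts

variable {p : ℕ} [Fact p.Prime] (M : Rep.{0} (ZMod p) GQ) [FiniteDimensional (ZMod p) M]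
  (hsm : s56gw_Smooth M)

/-- `p` kills `A = M'`. -/
theorem s56gdm_nsmul_A (x : (s56gd_A M hsm).V) : p • x = 0 := by
  apply (s56gd_e M hsm).injective
  rw [map_nsmul, map_zero]
  exact ZModModule.char_nsmul_eq_zero p _

/-- `p • F ⊆ i(R)`. -/
theorem s56gdm_pF (f : (s56gd_F M hsm).V) :
    ∃ r : (s56gd_R M hsm).V, (la_ι (s56gd_A M hsm)).hom r = p • f := by
  apply dm_la_exact
  rw [map_nsmul]
  exact s56gdm_nsmul_A M hsm _

end Facts

section Main

variable {p : ℕ} [hp : Fact p.Prime]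

/-- The action of `Gal(L/K)` on the lattices pulled back from `Δ₀` is trivial for `K ≥ K0`. -/
theorem s56gdm_rel_trivial (M : Rep.{0} (ZMod p) GQ) [FiniteDimensional (ZMod p) M]
    (hsm : s56gw_Smooth M) {S : Finset Nat.Primes} (K L : du_Lev S)
    (hK : s56gd_K0 M hsm ≤ s56gd_Fld.ofLev K) (hL : s56gd_K0 M hsm ≤ s56gd_Fld.ofLev L)
    (Y : Rep.{0} ℤ (s56gd_K0 M hsm).Γ) (g : L.Γ) (hg : g ∈ L.rel K) (y : Y.V) :
    (Rep.res (s56gd_ra M hsm (s56gd_Fld.ofLev L) hL) Y).ρ g y = y := by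
  obtain ⟨σ, hσ, rfl⟩ := hg
  show Y.ρ (s56gd_ra M hsm (s56gd_Fld.ofLev L) hL ((s56gd_Fld.ofLev L).q σ)) y = y
  rw [s56gd_ra_q]
  have h1 : s56gd_pi0 M hsm σ = 1 := by
    rw [(s56gd_K0 M hsm).q_eq_one_iff]
    exact IntermediateField.fixingSubgroup_antitone hK hσ
  rw [h1, map_one]
  rfl

/-- **[D7]: middle exactness of Poitou–Tate** from the two global seams [Y2], [X2]. -/
theorem s56gdm_main (hY2 : s56gd_Y2_stmt) (hX2 : s56gd_X2_stmt) : s56gd_ME_stmt := by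
  intro p hpF hp2 M _ hsm I S hpS hur ξ hξ
  classical
  have hpp : p.Prime := hpF.out
  -- the levels
  obtain ⟨K₁, hK₁⟩ := du_Lev.exists_ge_field (S := S) (s56gd_K0 M hsm).L
    (s56gd_K0_unr M hsm S hpS hur)
  obtain ⟨K₂, L, hK, hKL, hE1⟩ := s56gd_E1 hp2 S hpS K₁
  have hbK : s56gd_K0 M hsm ≤ s56gd_Fld.ofLev K₂ :=
    le_trans (α := IntermediateField ℚ Qbar) hK₁ hK
  have hbL : s56gd_K0 M hsm ≤ s56gd_Fld.ofLev L :=
    le_trans (α := IntermediateField ℚ Qbar) hbK hKL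
  have hR : ld_IsLattice (s56gd_Rb M hsm S L hbL) := s56gd_isLattice_Rb M hsm S L hbL
  have hF : ld_IsLattice (s56gd_Fb M hsm S L hbL) := s56gd_isLattice_Fb M hsm S L hbL
  -- Step 1: the local classes as homomorphisms at the level `L`, and their semi-local lifts
  have h1 : ∀ q : ↥S, ∃ t' : tt_res (s56gd_D q.1 (s56gd_Fld.ofLev L))
        (s56gd_Ra M hsm (s56gd_Fld.ofLev L) hbL) ⟶ s56gd_X q.1 (s56gd_Fld.ofLev L),
      s56gd_d0 M hsm q.1 (s56gd_lamt M hsm (s56gd_Fld.ofLev L) hbL q.1 t') = ξ q.1 := by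
    intro q
    obtain ⟨t, ht⟩ := s56gd_d0_surjective M hsm q.1 (ξ q.1)
    obtain ⟨t', ht'⟩ := s56gd_exists_lamt M hsm (s56gd_Fld.ofLev L) hbL q.1 t
    exact ⟨t', by rw [ht', ht]⟩
  choose t' ht' using h1
  have h2 : ∀ q : ↥S, ∃ ψ : s56gd_Rb M hsm S L hbL ⟶ ((s56gd_seam hp2 S hpS).dat L).Jq q,
      (Rep.resFunctor (((s56gd_seam hp2 S hpS).dat L).D q).subtype).map ψ ≫ ((s56gd_seam hp2 S hpS).dat L).pr q = t' q :=
    fun q => ((s56gd_seam hp2 S hpS).dat L).frob q (s56gd_Rb M hsm S L hbL) (t' q)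
  choose ψ hψ using h2
  -- Step 2: `φ = Σ_q j_q ψ_q` is orthogonal to `ker(i_*)(p)`
  have hφ : ∀ z : ld_P (p := p) (s56gd_Rb M hsm S L hbL),
      fd_pMap p (tt_coeffMap (s56gd_ib M hsm S L hbL) 2).hom.toAddMonoidHom z = 0 →
      ld_θ ((s56gd_seam hp2 S hpS).dat L) (s56gd_Rb M hsm S L hbL)
        (∑ q : ↥S, ld_a ((s56gd_seam hp2 S hpS).dat L) (s56gd_Rb M hsm S L hbL) q (ψ q)) z = 0 := by
    intro z hz
    obtain ⟨y, hy⟩ := hY2 p M hsm I S L hbL z.1 (congrArg Subtype.val hz)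
    have h0 := hξ y
    rw [← Finset.sum_coe_sort] at h0
    have key : ∀ q : ↥S, s56gd_Bq M hsm q.1 (I q.1) (ξ q.1)
        (s56gd_lvloc (s56gw_dual M) S q.1 y) =
        ld_θ ((s56gd_seam hp2 S hpS).dat L) (s56gd_Rb M hsm S L hbL)
          (ld_a ((s56gd_seam hp2 S hpS).dat L) (s56gd_Rb M hsm S L hbL) q (ψ q)) z := by
      intro q
      rw [ld_sum, ld_θq_apply, ← ht' q, hy q (t' q), hψ q]
      rfl
    have hsum : ld_θ ((s56gd_seam hp2 S hpS).dat L) (s56gd_Rb M hsm S L hbL)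
        (∑ q : ↥S, ld_a ((s56gd_seam hp2 S hpS).dat L) (s56gd_Rb M hsm S L hbL) q (ψ q)) z =
        ∑ q : ↥S, ld_θ ((s56gd_seam hp2 S hpS).dat L) (s56gd_Rb M hsm S L hbL)
          (ld_a ((s56gd_seam hp2 S hpS).dat L) (s56gd_Rb M hsm S L hbL) q (ψ q)) z := by
      rw [map_sum]
      exact map_sum (fd_eval z) _ _
    rw [hsum, ← h0]
    exact Finset.sum_congr rfl fun q _ => (key q).symm
  -- Steps 3, 4: Tate–Nakayama
  obtain ⟨φF, n, hn, hnrm⟩ := s56gdm_tn ((s56gd_seam hp2 S hpS).dat L) (s56gd_ib M hsm S L hbL) hR hF _ hφ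
  -- Step 5: the existence theorem absorbs the norm
  have : Fintype ↥(L.rel K₂) := Fintype.ofFinite _
  obtain ⟨n', ν, hn', hν⟩ := s56gdm_absorb (p := p) (L.rel K₂) (s56gd_Rb M hsm S L hbL)
    ((s56gd_seam hp2 S hpS).dat L).C hR (fun h hh y => s56gdm_rel_trivial M hsm K₂ L hbK hbL _ h hh y)
    (fun c => by
      obtain ⟨d, hd⟩ := hE1 c
      refine ⟨(s56gd_seam hp2 S hpS).tC hKL d, fun h hh => ?_, ?_⟩
      · obtain ⟨σ, hσ, rfl⟩ := hh
        rw [← (s56gd_seam hp2 S hpS).tC_equiv hKL σ d, (K₂.q_eq_one_iff σ).2 hσ, map_one]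
        rfl
      · rw [← map_nsmul, ← hd]
        exact (Finset.sum_subtype (Finset.univ.filter (fun h : L.Γ => h ∈ L.rel K₂))
          (fun h => by simp) (fun h => ((s56gd_seam hp2 S hpS).dat L).C.ρ h c)).symm) _ hnrm
  -- Step 6: `p ν = i ≫ φ'`
  obtain ⟨φ', hφ'⟩ := s56gdm_pdiv (s56gd_ib M hsm S L hbL) p
    (dm_la_ι_injective (s56gd_A M hsm)) (s56gdm_pF M hsm) ν
  have hm : ¬ p ∣ n' * n := fun h => (hpp.dvd_mul.1 h).elim hn' hn
  have hΦ : (n' * n) • (∑ q : ↥S, ld_a ((s56gd_seam hp2 S hpS).dat L) (s56gd_Rb M hsm S L hbL) q (ψ q)) =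
      s56gd_ib M hsm S L hbL ≫ ((n' * n) • φF + φ') := by
    have e1 := hν.trans hφ'
    rw [← mul_smul, smul_sub] at e1
    rw [Preadditive.comp_add, Preadditive.comp_nsmul, ← e1]
    abel
  -- Step 7: capitulation
  obtain ⟨k, hk, hcap⟩ := du_cap_mem (s56gd_seam hp2 S hpS) L (s56gd_Fb M hsm S L hbL) hF ((n' * n) • φF + φ')
  have hkm : ¬ p ∣ k * (n' * n) := fun h => (hpp.dvd_mul.1 h).elim hk hm
  have hpair : (∑ q : ↥S, ((k * (n' * n)) • ψ q) ≫ ((s56gd_seam hp2 S hpS).dat L).j q) =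
      s56gd_ib M hsm S L hbL ≫ (k • ((n' * n) • φF + φ')) := by
    rw [Preadditive.comp_nsmul, ← hΦ, ← mul_smul, Finset.smul_sum]
    refine Finset.sum_congr rfl fun q _ => ?_
    exact Preadditive.nsmul_comp _ _ _
  obtain ⟨x, hx⟩ := hX2 p hp2 M hsm S hpS hur L hbL (fun q => (k * (n' * n)) • ψ q)
    (k • ((n' * n) • φF + φ')) hpair hcap
  -- Step 8: `loc_q x = (k n' n) ξ_q`; invert `k n' n` modulo `p`
  have hres : ∀ q : ↥S, (Rep.resFunctor (((s56gd_seam hp2 S hpS).dat L).D q).subtype).map ((k * (n' * n)) • ψ q) ≫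
      ((s56gd_seam hp2 S hpS).dat L).pr q = (k * (n' * n)) • t' q := by
    intro q
    rw [Functor.map_nsmul, Preadditive.nsmul_comp, hψ q]
    rfl
  have hx' : ∀ q : ↥S, s56gd_lvloc M S q.1 x = (k * (n' * n)) • ξ q.1 := by
    intro q
    have e2 : s56gd_lamt M hsm (s56gd_Fld.ofLev L) hbL q.1
        ((Rep.resFunctor (((s56gd_seam hp2 S hpS).dat L).D q).subtype).map
          ((k * (n' * n)) • ψ q) ≫ ((s56gd_seam hp2 S hpS).dat L).pr q) =
        s56gd_lamt M hsm (s56gd_Fld.ofLev L) hbL q.1 ((k * (n' * n)) • t' q) :=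
      congrArg (s56gd_lamt M hsm (s56gd_Fld.ofLev L) hbL q.1) (hres q)
    refine (hx q).trans ((congrArg (s56gd_d0 M hsm q.1) e2).trans ?_)
    rw [s56gdm_lamt_nsmul, map_nsmul, ht' q]
  have hcop : Nat.Coprime (k * (n' * n)) p :=
    (Nat.Coprime.symm ((Nat.Prime.coprime_iff_not_dvd hpp).2 hkm))
  obtain ⟨e, -, he⟩ := Nat.exists_mul_mod_eq_one_of_coprime hcop hpp.one_lt
  refine ⟨e • x, fun q hq => ?_⟩
  rw [map_nsmul, hx' ⟨q, hq⟩, ← mul_smul]
  have h3 : e * (k * (n' * n)) = p * (e * (k * (n' * n)) / p) + 1 := by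
    have := Nat.div_add_mod (e * (k * (n' * n))) p
    rw [mul_comm e, he] at this
    rw [mul_comm e]
    exact this.symm
  rw [h3, add_smul, one_smul, mul_comm p, mul_smul, s56gd_nsmul_H1N, smul_zero, zero_add]

end Main

end

end Fermat.Agent.S56
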