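import Fermat.Agent.S56.GW.Dual.Global

/-!
# S56 / [GW-DUAL], cell [D7]: the abstract parts of the middle-exactness chase (prefix `s56gdm_`)

* `s56gdm_factor` : the duality chase "a character of `P₁` of the form `θ₁ φ` which kills the kernel
  of `u : P₁ → P₂` is `θ₁ (v φ₂)`" (adjoint pairings, `θ₂` right non-degenerate);
* `s56gdm_tn` : the Tate–Nakayama form: `φ ∈ Hom_Γ(R, C)` orthogonal to `ker(i_*)(p)` is, up to a
  prime-to-`p` multiple and a norm, of the form `i ≫ φ_F`;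
* `s56gdm_absorb` : norms are `p`-multiples when all partial norms of `C` are;
* `s56gdm_pdiv` : `p • ν = i ≫ φ'` when `p • F ⊆ i(R)`.
-/

set_option autoImplicit false
set_option linter.unusedSectionVars false

open CategoryTheory groupCohomology

namespace Fermat.Agent.S56

open Fermat.Agent.S55

noncomputable section

section Abstract

variable {P₁ P₂ C₁ C₂ : Type*} [AddCommGroup P₁] [AddCommGroup P₂] [Finite P₂]
  [AddCommGroup C₁] [AddCommGroup C₂]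

/-- **The factorisation chase.** -/
theorem s56gdm_factor (θ₁ : C₁ →+ CharacterModule P₁) (θ₂ : C₂ →+ CharacterModule P₂)
    (hR₂ : ∀ y : P₂, (∀ φ, θ₂ φ y = 0) → y = 0)
    (u : P₁ →+ P₂) (v : C₂ →+ C₁) (hadj : ∀ φ y, θ₁ (v φ) y = θ₂ φ (u y))
    (φ : C₁) (hφ : ∀ y, u y = 0 → θ₁ φ y = 0) :
    ∃ φ₂ : C₂, θ₁ (φ - v φ₂) = 0 := by
  obtain ⟨ξ, hξ⟩ := fd_factor u (θ₁ φ) hφ
  obtain ⟨φ₂, rfl⟩ := fd_surjective_of_separating θ₂ hR₂ ξ
  refine ⟨φ₂, ?_⟩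
  ext y
  rw [map_sub]
  show θ₁ φ y - θ₁ (v φ₂) y = 0
  rw [hadj, hξ, sub_self]

end Abstract

section TN

variable {Γ : Type} [Group Γ] [Fintype Γ] {p : ℕ} [hp : Fact p.Prime] {ι : Type}
  (𝔻 : ld_Data p Γ ι) {R F : Rep.{0} ℤ Γ} (i : R ⟶ F)

/-- **The Tate–Nakayama chase for middle exactness.**  If `φ ∈ Hom_Γ(R, C)` pairs to zero with
every `p`-primary class of `H²(Γ, R)` killed by `i_*`, then a prime-to-`p` multiple of
`φ - i ≫ φ_F` is a norm, for some `φ_F ∈ Hom_Γ(F, C)`. -/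
theorem s56gdm_tn (hR : ld_IsLattice R) (hF : ld_IsLattice F) (φ : R ⟶ 𝔻.C)
    (hφ : ∀ y : ld_P (p := p) R, fd_pMap p (tt_coeffMap i 2).hom.toAddMonoidHom y = 0 →
      ld_θ 𝔻 R φ y = 0) :
    ∃ (φF : F ⟶ 𝔻.C) (n : ℕ), ¬ p ∣ n ∧ n • (φ - i ≫ φF) ∈ ld_Nrm R 𝔻.C := by
  have : Finite (groupCohomology F 2) := fh_finite_H2 _ hF
  have hTR : ld_TNR 𝔻.P := tnb_TNR 𝔻.P
  have hTL : ld_TNL 𝔻.P := tnb_TNL 𝔻.P
  obtain ⟨φF, hφF⟩ := s56gdm_factor (ld_θ 𝔻 R) (ld_θ 𝔻 F) (ld_right 𝔻 F hF hTR)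
    (fd_pMap p (tt_coeffMap i 2).hom.toAddMonoidHom) (ld_pre 𝔻 i) (fun ψ y => by
      rw [ld_θ_apply, ld_θ_apply]
      show 𝔻.P.invTop ((tt_coeffMap (i ≫ ψ) 2).hom y.1) = _
      rw [ld_coeffMap_comp_apply]
      rfl) φ hφ
  obtain ⟨n, hn, hmem⟩ := hTL R hR (φ - i ≫ φF) (fun y hy => by
    have := DFunLike.congr_fun hφF ⟨y, hy⟩
    exact this)
  exact ⟨φF, n, hn, hmem⟩

end TN

section Absorb

variable {Γ : Type} [Group Γ] [Fintype Γ] (N : Subgroup Γ) [Fintype N]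
  {p : ℕ} [hp : Fact p.Prime] (R C : Rep.{0} ℤ Γ)

/-- **Norms are `p`-multiples** when every partial norm `∑_{h ∈ N} h c` is `p` times an
`N`-invariant element and `N` acts trivially on the lattice `R`. -/
theorem s56gdm_absorb (hR : ld_IsLattice R) (hNR : ∀ h ∈ N, ∀ y : R.V, R.ρ h y = y)
    (hdiv : ∀ c : C.V, ∃ d : C.V, (∀ h ∈ N, C.ρ h d = d) ∧ ∑ h : N, C.ρ (h : Γ) c = p • d)
    (φ : R ⟶ C) (hφ : φ ∈ ld_Nrm R C) :
    ∃ (n : ℕ) (ν : R ⟶ C), ¬ p ∣ n ∧ n • φ = p • ν := by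
  have h := ab_absorb (p := p) N R C (fun _ : Unit => C) (fun _ => p • 𝟙 C) hR hNR (fun c => by
    obtain ⟨d, hd, hsum⟩ := hdiv c
    refine ⟨1, hp.out.not_dvd_one, fun _ => d, fun _ h hh => hd h hh, ?_⟩
    rw [one_smul, hsum, Finset.univ_unique, Finset.sum_singleton, ab_nsmul_hom]
    rfl) hφ
  obtain ⟨n, hn, hmem⟩ := h
  refine ⟨n, ?_⟩
  have hle : (⨆ q : Unit, (ab_a R C (fun _ : Unit => C) (fun _ => p • 𝟙 C) q).range) ≤
      (ab_a R C (fun _ : Unit => C) (fun _ => p • 𝟙 C) ()).range :=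
    iSup_le fun q => le_of_eq (by cases q; rfl)
  obtain ⟨ν, hν⟩ := hle hmem
  refine ⟨ν, hn, ?_⟩
  rw [← hν]
  apply ab_hom_ext
  intro y
  rw [ab_a_hom, ab_nsmul_hom, ab_nsmul_hom]
  rfl

end Absorb

section PDiv

variable {Γ : Type} [Group Γ] {R F C : Rep.{0} ℤ Γ} (i : R ⟶ F) (p : ℕ)

/-- **`p • Hom_Γ(R, C) ⊆ i^* Hom_Γ(F, C)`** when `i` is injective and `p • F ⊆ i(R)`. -/
theorem s56gdm_pdiv (hi : Function.Injective i.hom)
    (hpF : ∀ f : F.V, ∃ r : R.V, i.hom r = p • f) (ν : R ⟶ C) :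
    ∃ φ' : F ⟶ C, p • ν = i ≫ φ' := by
  choose g hg using hpF
  have hg0 : ∀ f f' : F.V, g (f + f') = g f + g f' := fun f f' => hi (by
    rw [map_add, hg, hg, hg, smul_add])
  let φ₀ : F.V →+ C.V :=
    { toFun := fun f => ν.hom (g f)
      map_zero' := by
        have : g 0 = 0 := hi (by rw [hg, smul_zero, map_zero])
        rw [this, map_zero]
      map_add' := fun f f' => by rw [hg0, map_add] }
  have hφ₀ : ∀ (γ : Γ) (f : F.V), φ₀ (F.ρ γ f) = C.ρ γ (φ₀ f) := by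
    intro γ f
    show ν.hom (g (F.ρ γ f)) = C.ρ γ (ν.hom (g f))
    have h1 : g (F.ρ γ f) = R.ρ γ (g f) := hi (by
      rw [hg, Rep.hom_comm_apply, hg, map_nsmul])
    rw [h1, Rep.hom_comm_apply]
  refine ⟨la_ofAddHom φ₀ hφ₀, ?_⟩
  apply ab_hom_ext
  intro r
  rw [ab_nsmul_hom]
  show p • ν.hom r = ν.hom (g (i.hom r))
  have h2 : g (i.hom r) = p • r := hi (by rw [hg, map_nsmul])
  rw [h2, map_nsmul]

end PDiv

end

end Fermat.Agent.S56
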